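/-
Programme MAZ (S15), brick T1B-U6 TORS-CMP, step (T4) COUNT, abstract form (helper43): an injective
homomorphism `j : S → A` from a subgroup `S` of `G` containing `G[n]` hits every `n`-torsion element of
`A` as soon as `#A[n] ≤ #G[n]` (both counts come from S27 + `AV/PicBridge84/Torsion.card_torsion_eq`).
The conclusion is the hypothesis `hcmp` of `K3Abs43.exists_global_root`.  Mathlib only.
-/
import Mathlib

set_option autoImplicit false

namespace Fermat.Agent.MAZ.K3Abs43

variable {G A : Type*} [AddCommGroup G] [AddCommGroup A]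

/-- **(T4) COUNT.** -/
theorem exists_torsion_preimage_of_card_le (S : AddSubgroup G) (j : ↥S →+ A)
    (hinj : Function.Injective j) (n : ℕ) (hS : ∀ x : G, n • x = 0 → x ∈ S)
    [Finite {t : A // n • t = 0}]
    (hcard : Nat.card {t : A // n • t = 0} ≤ Nat.card {x : G // n • x = 0}) :
    ∀ t : A, n • t = 0 → ∃ τ : ↥S, n • τ = 0 ∧ j τ = t := by
  let φ : {x : G // n • x = 0} → {t : A // n • t = 0} := fun x =>
    ⟨j ⟨x.1, hS x.1 x.2⟩, by
      rw [← map_nsmul]
      have : n • (⟨x.1, hS x.1 x.2⟩ : ↥S) = 0 := Subtype.ext (by simpa using x.2)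
      rw [this, map_zero]⟩
  have hφ : Function.Injective φ := by
    intro x y hxy
    have h1 : j ⟨x.1, hS x.1 x.2⟩ = j ⟨y.1, hS y.1 y.2⟩ := congrArg Subtype.val hxy
    have h2 := hinj h1
    exact Subtype.ext (congrArg (fun z : ↥S => (z : G)) h2)
  have hbij : Function.Bijective φ := hφ.bijective_of_nat_card_le hcard
  intro t ht
  obtain ⟨x, hx⟩ := hbij.2 ⟨t, ht⟩
  refine ⟨⟨x.1, hS x.1 x.2⟩, Subtype.ext (by simpa using x.2), ?_⟩
  exact congrArg Subtype.val hx

/-- The form used by `exists_global_root` (no torsion information on the preimage). -/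
theorem hcmp_of_card_le (S : AddSubgroup G) (j : ↥S →+ A)
    (hinj : Function.Injective j) (n : ℕ) (hS : ∀ x : G, n • x = 0 → x ∈ S)
    [Finite {t : A // n • t = 0}]
    (hcard : Nat.card {t : A // n • t = 0} ≤ Nat.card {x : G // n • x = 0}) :
    ∀ t : A, n • t = 0 → ∃ τ : ↥S, j τ = t := fun t ht =>
  let ⟨τ, _, h⟩ := exists_torsion_preimage_of_card_le S j hinj n hS hcard t ht
  ⟨τ, h⟩

end Fermat.Agent.MAZ.K3Abs43
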