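/-
Programme MAZ (S15), brick T1B-U, consumer half, TORSION FORM (helper43).

`(K3)` : `∃ M₁ > 0, ∀ k, ∀ y ∈ J₀(p)(ℚ), ∃ z', r ^ k • z' = M₁ • y ∧ z'` fixed by inertia at `p`.

Variant of helper42's `K3Abs42.exists_division_point` in which (RED-SURJ) (divisibility of `J0^I/J1^I`,
which needs the special fibre over `κ̄`, lifting of classes and unramified extensions) is replaced by

* `htors`  : `J0 / J1` is a TORSION group (it embeds in the union of the groups `Pic⁰(X_κ')`, `κ'` finite);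
* `hstab`  : `J1` is stable under inertia;
* `hdiv`, `hinj` : `J1` is UNIQUELY `r`-divisible (formal group, `r ≠ p`),

at the price of a constant `M` depending on the point `y`
(`exists_division_point_of_torsion`); the dependence on `y` is removed for a FINITELY GENERATED group of
points (`exists_uniform_of_fg`, Mordell–Weil = S17 is a hypothesis of the descent anyway):
`exists_uniform_division_of_fg`.  Mathlib only.
-/
import Mathlib

set_option autoImplicit false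
set_option linter.unusedSectionVars false

namespace Fermat.Agent.MAZ.K3Abs43

variable {I A : Type*} [Group I] [AddCommGroup A] [DistribMulAction I A]

/-- Iterated divisibility in `J1`. -/
theorem exists_pow_smul_eq (J1 : AddSubgroup A) (r : ℕ)
    (hdiv : ∀ x ∈ J1, ∃ x' ∈ J1, r • x' = x) (k : ℕ) :
    ∀ x ∈ J1, ∃ x' ∈ J1, r ^ k • x' = x := by
  induction k with
  | zero => exact fun x hx => ⟨x, hx, by rw [pow_zero, one_smul]⟩
  | succ k ih =>
    intro x hx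
    obtain ⟨x₁, hx₁, h₁⟩ := ih x hx
    obtain ⟨x₂, hx₂, h₂⟩ := hdiv x₁ hx₁
    exact ⟨x₂, hx₂, by rw [pow_succ, mul_smul, h₂, h₁]⟩

/-- Iterated torsion-freeness in `J1`. -/
theorem eq_zero_of_pow_smul_eq_zero (J1 : AddSubgroup A) (r : ℕ)
    (hinj : ∀ x ∈ J1, r • x = 0 → x = 0) (k : ℕ) :
    ∀ x ∈ J1, r ^ k • x = 0 → x = 0 := by
  induction k with
  | zero => exact fun x _ h => by rwa [pow_zero, one_smul] at h
  | succ k ih =>
    intro x hx h
    rw [pow_succ, mul_smul] at h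
    exact hinj x hx (ih (r • x) (J1.nsmul_mem hx r) h)

/-- **(K3), pointwise torsion form.**  `J1 ≤ J0 ≤ A` with `I` acting; (Φ) every invariant class has
`N • y - m • c ∈ J0`; (CUSP) `n₀ • c ∈ J0`; `J0 / J1` torsion; `J1` stable and uniquely `r`-divisible.
Then every invariant `y` has a multiple `M • y` (`M > 0` independent of `k`) with invariant
`r ^ k`-th roots for all `k`. -/
theorem exists_division_point_of_torsion (J0 J1 : AddSubgroup A) (r : ℕ) (c : A) (N : ℤ) (n₀ : ℕ)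
    (hN : N ≠ 0) (hn₀ : 0 < n₀)
    (hphi : ∀ y : A, (∀ s : I, s • y = y) → ∃ m : ℤ, N • y - m • c ∈ J0)
    (hcusp : n₀ • c ∈ J0)
    (htors : ∀ x ∈ J0, ∃ h : ℕ, 0 < h ∧ h • x ∈ J1)
    (hstab : ∀ s : I, ∀ x ∈ J1, s • x ∈ J1)
    (hdiv : ∀ x ∈ J1, ∃ x' ∈ J1, r • x' = x)
    (hinj : ∀ x ∈ J1, r • x = 0 → x = 0)
    (y : A) (hyI : ∀ s : I, s • y = y) :
    ∃ M : ℕ, 0 < M ∧ ∀ k : ℕ, ∃ z' : A, r ^ k • z' = M • y ∧ ∀ s : I, s • z' = z' := by
  obtain ⟨m, hm⟩ := hphi y hyI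
  -- `(n₀ * |N|) • y ∈ J0`
  have h1 : (n₀ : ℤ) • (N • y) ∈ J0 := by
    have e : (n₀ : ℤ) • (N • y) = (n₀ : ℤ) • (N • y - m • c) + m • (n₀ • c) := by
      have e0 : n₀ • c = (n₀ : ℤ) • c := (natCast_zsmul c n₀).symm
      rw [e0, smul_sub, smul_comm (n₀ : ℤ) m c]
      abel
    rw [e]
    exact J0.add_mem (J0.zsmul_mem hm _) (J0.zsmul_mem hcusp _)
  have h2 : (n₀ * N.natAbs) • y ∈ J0 := by
    have e : ((n₀ * N.natAbs : ℕ) : ℤ) • y = (n₀ : ℤ) • ((N.natAbs : ℤ) • y) := by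
      rw [Nat.cast_mul, mul_smul]
    rw [← natCast_zsmul, e]
    rcases Int.natAbs_eq N with hN' | hN'
    · have e1 : ((N.natAbs : ℕ) : ℤ) = N := by omega
      rw [e1]; exact h1
    · have e2 : ((N.natAbs : ℕ) : ℤ) = -N := by omega
      rw [e2, neg_smul, smul_neg]
      exact J0.neg_mem h1
  obtain ⟨h, hh, hw⟩ := htors _ h2
  refine ⟨h * (n₀ * N.natAbs), Nat.mul_pos hh (Nat.mul_pos hn₀ (Int.natAbs_pos.2 hN)), fun k => ?_⟩
  rw [mul_smul]
  set w : A := h • (n₀ * N.natAbs) • y with hwdef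
  have hwI : ∀ s : I, s • w = w := fun s => by
    rw [hwdef, smul_comm s h, smul_comm s (n₀ * N.natAbs) y, hyI s]
  obtain ⟨z, hz, hzw⟩ := exists_pow_smul_eq J1 r hdiv k w hw
  refine ⟨z, hzw, fun s => ?_⟩
  have h3 : s • z - z ∈ J1 := J1.sub_mem (hstab s z hz) hz
  have h4 : r ^ k • (s • z - z) = 0 := by
    rw [smul_sub, smul_comm (r ^ k) s z, hzw, hwI s, sub_self]
  exact sub_eq_zero.1 (eq_zero_of_pow_smul_eq_zero J1 r hinj k _ h3 h4)

/-- **Uniformisation over a finitely generated group of points.** -/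
theorem exists_uniform_of_fg (Q : AddSubgroup A) (hfg : Q.FG) (r : ℕ)
    (h : ∀ y ∈ Q, ∃ M : ℕ, 0 < M ∧
      ∀ k : ℕ, ∃ z' : A, r ^ k • z' = M • y ∧ ∀ s : I, s • z' = z') :
    ∃ M₁ : ℕ, 0 < M₁ ∧ ∀ k : ℕ, ∀ y ∈ Q, ∃ z' : A, r ^ k • z' = M₁ • y ∧ ∀ s : I, s • z' = z' := by
  classical
  obtain ⟨S, hS⟩ := hfg
  choose! Mf hMpos hMf using h
  have hSQ : ∀ g ∈ S, g ∈ Q := fun g hg => hS ▸ AddSubgroup.subset_closure hg
  refine ⟨∏ g ∈ S, Mf g, Finset.prod_pos fun g hg => hMpos g (hSQ g hg), fun k => ?_⟩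
  -- the good points for `(k, M₁)` form a subgroup
  let T : AddSubgroup A :=
    { carrier := {y | ∃ z' : A, r ^ k • z' = (∏ g ∈ S, Mf g) • y ∧ ∀ s : I, s • z' = z'}
      zero_mem' := ⟨0, by rw [smul_zero, smul_zero], fun s => smul_zero s⟩
      add_mem' := by
        rintro y y' ⟨z, hz, hzI⟩ ⟨z', hz', hzI'⟩
        exact ⟨z + z', by rw [smul_add, smul_add, hz, hz'], fun s => by rw [smul_add, hzI, hzI']⟩
      neg_mem' := by
        rintro y ⟨z, hz, hzI⟩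
        exact ⟨-z, by rw [smul_neg, smul_neg, hz], fun s => by rw [smul_neg, hzI]⟩ }
  have hle : Q ≤ T := by
    rw [← hS, AddSubgroup.closure_le]
    intro g hg
    obtain ⟨z, hz, hzI⟩ := hMf g (hSQ g hg) k
    refine ⟨(∏ g' ∈ S.erase g, Mf g') • z, ?_, fun s => by rw [smul_comm s, hzI]⟩
    rw [smul_comm (r ^ k), hz, ← mul_smul, Finset.prod_erase_mul S Mf hg]
  exact fun y hy => hle hy

/-- **(K3), uniform form** for a finitely generated group `Q` of invariant points. -/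
theorem exists_uniform_division_of_fg (J0 J1 : AddSubgroup A) (r : ℕ) (c : A) (N : ℤ) (n₀ : ℕ)
    (hN : N ≠ 0) (hn₀ : 0 < n₀)
    (hphi : ∀ y : A, (∀ s : I, s • y = y) → ∃ m : ℤ, N • y - m • c ∈ J0)
    (hcusp : n₀ • c ∈ J0)
    (htors : ∀ x ∈ J0, ∃ h : ℕ, 0 < h ∧ h • x ∈ J1)
    (hstab : ∀ s : I, ∀ x ∈ J1, s • x ∈ J1)
    (hdiv : ∀ x ∈ J1, ∃ x' ∈ J1, r • x' = x)
    (hinj : ∀ x ∈ J1, r • x = 0 → x = 0)
    (Q : AddSubgroup A) (hfg : Q.FG) (hQ : ∀ y ∈ Q, ∀ s : I, s • y = y) :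
    ∃ M₁ : ℕ, 0 < M₁ ∧ ∀ k : ℕ, ∀ y ∈ Q, ∃ z' : A, r ^ k • z' = M₁ • y ∧ ∀ s : I, s • z' = z' :=
  exists_uniform_of_fg Q hfg r fun y hy =>
    exists_division_point_of_torsion J0 J1 r c N n₀ hN hn₀ hphi hcusp htors hstab hdiv hinj y
      (hQ y hy)

end Fermat.Agent.MAZ.K3Abs43
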