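/-
Programme MAZ (S15), brick T1B-U, consumer half, part 2 (helper43): the `C`-FORM of the local argument
(the shape of `LocalGeom.phi` of T1B: `∀ y ∈ Pt, I-invariant → ∃ z ∈ C, y - z ∈ J0`) and the
GLOBALISATION step (plan v1.2, brick TORS-CMP).

* `exists_local_division` : local `(K3)` in `A`, `C`-form: for an invariant `y ∈ Y` there is `M > 0`
  (independent of `k`) such that `M • y` has, for every `k`, an invariant `r ^ k`-th root IN `J1`.
* `exists_global_root` : a dictionary `j : S → A` (injective, equivariant) on a stable subgroup `S` of the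
  global group `G`, a global root `z''` of `w`, a local invariant root `ξ` of `j w`, and
  TORS-CMP (`every n`-torsion class of `A` is `j` of an element of `S`) give a GLOBAL invariant root.
* `exists_global_division` : the two together, for one `k`.

Mathlib only.
-/
import Mathlib
import Fermat.Agent.MAZ.K3Abs43.Main

set_option autoImplicit false
set_option linter.unusedSectionVars false

namespace Fermat.Agent.MAZ.K3Abs43

section Local

variable {I A : Type*} [Group I] [AddCommGroup A] [DistribMulAction I A]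

/-- **Local (K3), `C`-form.**  `Y` = the classes we start from (e.g. classes of points of degree `0`),
`C'` = the possible correction terms (e.g. the degree-`0` part of `C = ⟨[R₁], [R₂]⟩`). -/
theorem exists_local_division (J0 J1 : AddSubgroup A) (Y C' : Set A) (r n₀ : ℕ) (hn₀ : 0 < n₀)
    (hphi : ∀ y ∈ Y, (∀ s : I, s • y = y) → ∃ z ∈ C', y - z ∈ J0)
    (hcusp : ∀ z ∈ C', n₀ • z ∈ J0)
    (htors : ∀ x ∈ J0, ∃ h : ℕ, 0 < h ∧ h • x ∈ J1)
    (hstab : ∀ s : I, ∀ x ∈ J1, s • x ∈ J1)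
    (hdiv : ∀ x ∈ J1, ∃ x' ∈ J1, r • x' = x)
    (hinj : ∀ x ∈ J1, r • x = 0 → x = 0)
    (y : A) (hyY : y ∈ Y) (hyI : ∀ s : I, s • y = y) :
    ∃ M : ℕ, 0 < M ∧ ∀ k : ℕ, ∃ ξ ∈ J1, r ^ k • ξ = M • y ∧ ∀ s : I, s • ξ = ξ := by
  obtain ⟨z, hz, hyz⟩ := hphi y hyY hyI
  have h2 : n₀ • y ∈ J0 := by
    have e : n₀ • y = n₀ • (y - z) + n₀ • z := by rw [smul_sub]; abel
    rw [e]
    exact J0.add_mem (J0.nsmul_mem hyz _) (hcusp z hz)
  obtain ⟨h, hh, hw⟩ := htors _ h2
  refine ⟨h * n₀, Nat.mul_pos hh hn₀, fun k => ?_⟩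
  rw [mul_smul]
  set w : A := h • n₀ • y with hwdef
  have hwI : ∀ s : I, s • w = w := fun s => by
    rw [hwdef, smul_comm s h, smul_comm s n₀ y, hyI s]
  obtain ⟨ξ, hξ, hξw⟩ := exists_pow_smul_eq J1 r hdiv k w hw
  refine ⟨ξ, hξ, hξw, fun s => ?_⟩
  have h3 : s • ξ - ξ ∈ J1 := J1.sub_mem (hstab s ξ hξ) hξ
  have h4 : r ^ k • (s • ξ - ξ) = 0 := by
    rw [smul_sub, smul_comm (r ^ k) s ξ, hξw, hwI s, sub_self]
  exact sub_eq_zero.1 (eq_zero_of_pow_smul_eq_zero J1 r hinj k _ h3 h4)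

end Local

section Global

variable {I G A : Type*} [Group I] [AddCommGroup G] [AddCommGroup A]
  [DistribMulAction I G] [DistribMulAction I A]

/-- **Globalisation of a local root** (uses TORS-CMP `hcmp`). -/
theorem exists_global_root (S : AddSubgroup G) (hS : ∀ (s : I) (x : G), x ∈ S → s • x ∈ S)
    (j : ↥S →+ A) (hinj : Function.Injective j)
    (hequiv : ∀ (s : I) (x : ↥S), j ⟨s • (x : G), hS s x x.2⟩ = s • j x) (n : ℕ)
    (hcmp : ∀ t : A, n • t = 0 → ∃ τ : ↥S, j τ = t)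
    (w z'' : ↥S) (hz'' : n • z'' = w)
    (ξ : A) (hξ : n • ξ = j w) (hξI : ∀ s : I, s • ξ = ξ) :
    ∃ z' : G, z' ∈ S ∧ n • z' = (w : G) ∧ ∀ s : I, s • z' = z' := by
  have ht : n • (j z'' - ξ) = 0 := by
    rw [smul_sub, ← map_nsmul, hz'', hξ, sub_self]
  obtain ⟨τ, hτ⟩ := hcmp _ ht
  have hjz : j (z'' - τ) = ξ := by rw [map_sub, hτ]; abel
  have hn : n • (z'' - τ) = w := by
    apply hinj
    rw [map_nsmul, hjz, hξ]
  refine ⟨((z'' - τ : ↥S) : G), (z'' - τ).2, ?_, fun s => ?_⟩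
  · have := congrArg (fun x : ↥S => (x : G)) hn
    simpa using this
  · have h1 : j ⟨s • ((z'' - τ : ↥S) : G), hS s _ (z'' - τ).2⟩ = j (z'' - τ) := by
      rw [hequiv s (z'' - τ), hjz, hξI s]
    have h2 := hinj h1
    exact congrArg (fun x : ↥S => (x : G)) h2

/-- **Global (K3) for one `k`**: the local division theorem in `A` + a dictionary on a stable subgroup
`S ∋ y` containing a global `r ^ k`-th root of `M • y` + TORS-CMP at `r ^ k`. The constant `M` is the
one of `exists_local_division` for `j y` (so it does not depend on `k`, nor on `S`, `j` as long as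
`j y` is the same class of `A`). -/
theorem exists_global_division (S : AddSubgroup G) (hS : ∀ (s : I) (x : G), x ∈ S → s • x ∈ S)
    (j : ↥S →+ A) (hinj : Function.Injective j)
    (hequiv : ∀ (s : I) (x : ↥S), j ⟨s • (x : G), hS s x x.2⟩ = s • j x)
    (r k M : ℕ) (hcmp : ∀ t : A, r ^ k • t = 0 → ∃ τ : ↥S, j τ = t)
    (y : ↥S) (hroot : ∃ z'' : ↥S, r ^ k • z'' = M • y)
    (hloc : ∃ ξ : A, r ^ k • ξ = M • j y ∧ ∀ s : I, s • ξ = ξ) :
    ∃ z' : G, r ^ k • z' = M • (y : G) ∧ ∀ s : I, s • z' = z' := by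
  obtain ⟨z'', hz''⟩ := hroot
  obtain ⟨ξ, hξ, hξI⟩ := hloc
  obtain ⟨z', -, hz', hz'I⟩ := exists_global_root S hS j hinj hequiv (r ^ k) hcmp (M • y) z'' hz'' ξ
    (by rw [hξ, map_nsmul]) hξI
  exact ⟨z', by rw [hz']; simp, hz'I⟩

end Global

end Fermat.Agent.MAZ.K3Abs43
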