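/-
Programme MAZ (S15), brick T1B-U (helper43): the `S = ⊤` forms of `K3Abs43/Global` and `K3Abs43/Count`,
for a GLOBAL dictionary `j : G →+ A` (helper7's `jAll : JZero N →+ Atop p K c0`).  Mathlib only.
-/
import Mathlib

set_option autoImplicit false

namespace Fermat.Agent.MAZ.K3Abs43

variable {I G A : Type*} [Group I] [AddCommGroup G] [AddCommGroup A]
  [DistribMulAction I G] [DistribMulAction I A]

/-- **(T4) COUNT**, global dictionary. -/
theorem hcmp_top_of_card_le (j : G →+ A) (hinj : Function.Injective j) (n : ℕ)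
    [Finite {t : A // n • t = 0}]
    (hcard : Nat.card {t : A // n • t = 0} ≤ Nat.card {x : G // n • x = 0}) :
    ∀ t : A, n • t = 0 → ∃ τ : G, n • τ = 0 ∧ j τ = t := by
  let φ : {x : G // n • x = 0} → {t : A // n • t = 0} := fun x =>
    ⟨j x.1, by rw [← map_nsmul, x.2, map_zero]⟩
  have hφ : Function.Injective φ := fun x y hxy =>
    Subtype.ext (hinj (congrArg Subtype.val hxy))
  have hbij : Function.Bijective φ := hφ.bijective_of_nat_card_le hcard
  intro t ht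
  obtain ⟨x, hx⟩ := hbij.2 ⟨t, ht⟩
  exact ⟨x.1, x.2, congrArg Subtype.val hx⟩

/-- **Globalisation of a local root**, global dictionary. -/
theorem exists_global_root_top (j : G →+ A) (hinj : Function.Injective j)
    (hequiv : ∀ (s : I) (x : G), j (s • x) = s • j x) (n : ℕ)
    (hcmp : ∀ t : A, n • t = 0 → ∃ τ : G, j τ = t)
    (w z'' : G) (hz'' : n • z'' = w)
    (ξ : A) (hξ : n • ξ = j w) (hξI : ∀ s : I, s • ξ = ξ) :
    ∃ z' : G, n • z' = w ∧ j z' = ξ ∧ ∀ s : I, s • z' = z' := by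
  have ht : n • (j z'' - ξ) = 0 := by
    rw [smul_sub, ← map_nsmul, hz'', hξ, sub_self]
  obtain ⟨τ, hτ⟩ := hcmp _ ht
  have hjz : j (z'' - τ) = ξ := by rw [map_sub, hτ]; abel
  refine ⟨z'' - τ, hinj (by rw [map_nsmul, hjz, hξ]), hjz, fun s => hinj ?_⟩
  rw [hequiv, hjz, hξI s]

/-- **Global (K3) for all `k`** from the local statement in `A` for `j y`, divisibility of `G`, and
TORS-CMP at all `r ^ k`. -/
theorem exists_global_division_top (j : G →+ A) (hinj : Function.Injective j)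
    (hequiv : ∀ (s : I) (x : G), j (s • x) = s • j x) (r M : ℕ)
    (hdivG : ∀ (k : ℕ) (x : G), ∃ z : G, r ^ k • z = x)
    (hcmp : ∀ (k : ℕ) (t : A), r ^ k • t = 0 → ∃ τ : G, j τ = t)
    (y : G)
    (hloc : ∀ k : ℕ, ∃ ξ : A, r ^ k • ξ = M • j y ∧ ∀ s : I, s • ξ = ξ) (k : ℕ) :
    ∃ z' : G, r ^ k • z' = M • y ∧ ∀ s : I, s • z' = z' := by
  obtain ⟨z'', hz''⟩ := hdivG k (M • y)
  obtain ⟨ξ, hξ, hξI⟩ := hloc k
  obtain ⟨z', hz', -, hz'I⟩ := exists_global_root_top j hinj hequiv (r ^ k) (hcmp k) (M • y) z'' hz''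
    ξ (by rw [hξ, map_nsmul]) hξI
  exact ⟨z', hz', hz'I⟩

end Fermat.Agent.MAZ.K3Abs43
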