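/-
Programme MAZ (S15), brick T1B-U (helper43): **the abstract (K3) theorem, all in one** — the target of
K3-ASM.  `G = J₀(4p)(ℚ̄)` with the action of `Γ = Gal(ℚ̄/ℚ)`; `A = Pic X_{ℚ̄_p}` with the action of the
local inertia group `Iloc`; `Iloc` also acts on `G` (through `localGaloisToGlobal`), every element of the
global inertia subgroup `I ≤ Γ` acts on `G` like some element of `Iloc`; `j : G →+ A` injective and
`Iloc`-equivariant (J-BRIDGE); `Qpts ≤ G` finitely generated, fixed by `Iloc` (= pull-back of `J₀(p)(ℚ)`,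
Mordell–Weil); `G` is `r`-divisible; TORS-CMP; and the local geometry `(J0, J1, Y, C', n₀)`.
Conclusion: the shape of `LeafK3` at level `4p` on the points of `Qpts`
(then `K3Level44.k3_transfer_image`).  Mathlib only.
-/
import Mathlib
import Fermat.Agent.MAZ.K3Abs43.Main
import Fermat.Agent.MAZ.K3Abs43.Global
import Fermat.Agent.MAZ.K3Abs43.GlobalTop

set_option autoImplicit false
set_option linter.unusedSectionVars false

namespace Fermat.Agent.MAZ.K3Abs43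

variable {Γ Iloc G A : Type*} [Group Γ] [Group Iloc] [AddCommGroup G] [AddCommGroup A]
  [DistribMulAction Γ G] [DistribMulAction Iloc G] [DistribMulAction Iloc A]

/-- **(K3), abstract, uniform over a finitely generated group of rational points.** -/
theorem k3_abstract (I : Set Γ)
    (hI : ∀ s ∈ I, ∃ τ : Iloc, ∀ x : G, τ • x = s • x)
    (j : G →+ A) (hinj : Function.Injective j)
    (hequiv : ∀ (τ : Iloc) (x : G), j (τ • x) = τ • j x)
    (r : ℕ)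
    (hdivG : ∀ (k : ℕ) (x : G), ∃ z : G, r ^ k • z = x)
    (hcmp : ∀ (k : ℕ) (t : A), r ^ k • t = 0 → ∃ τ : G, j τ = t)
    (J0 J1 : AddSubgroup A) (Y C' : Set A) (n₀ : ℕ) (hn₀ : 0 < n₀)
    (hphi : ∀ y ∈ Y, (∀ τ : Iloc, τ • y = y) → ∃ z ∈ C', y - z ∈ J0)
    (hcusp : ∀ z ∈ C', n₀ • z ∈ J0)
    (htors : ∀ x ∈ J0, ∃ h : ℕ, 0 < h ∧ h • x ∈ J1)
    (hstab : ∀ τ : Iloc, ∀ x ∈ J1, τ • x ∈ J1)
    (hdiv : ∀ x ∈ J1, ∃ x' ∈ J1, r • x' = x)
    (hinjJ1 : ∀ x ∈ J1, r • x = 0 → x = 0)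
    (Qpts : AddSubgroup G) (hfg : Qpts.FG)
    (hQI : ∀ y ∈ Qpts, ∀ τ : Iloc, τ • y = y)
    (hQY : ∀ y ∈ Qpts, j y ∈ Y) :
    ∃ M₁ : ℕ, 0 < M₁ ∧ ∀ k : ℕ, ∀ y ∈ Qpts,
      ∃ z' : G, r ^ k • z' = M₁ • y ∧ ∀ s ∈ I, s • z' = z' := by
  -- pointwise, with invariance under `Iloc`
  have hpt : ∀ y ∈ Qpts, ∃ M : ℕ, 0 < M ∧
      ∀ k : ℕ, ∃ z' : G, r ^ k • z' = M • y ∧ ∀ τ : Iloc, τ • z' = z' := by
    intro y hy
    have hyI : ∀ τ : Iloc, τ • j y = j y := fun τ => by rw [← hequiv, hQI y hy τ]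
    obtain ⟨M, hM, hloc⟩ := exists_local_division J0 J1 Y C' r n₀ hn₀ hphi hcusp htors hstab hdiv
      hinjJ1 (j y) (hQY y hy) hyI
    refine ⟨M, hM, fun k => ?_⟩
    exact exists_global_division_top j hinj hequiv r M hdivG hcmp y
      (fun k => by
        obtain ⟨ξ, -, hξ, hξI⟩ := hloc k
        exact ⟨ξ, hξ, hξI⟩) k
  obtain ⟨M₁, hM₁, h⟩ := exists_uniform_of_fg (I := Iloc) Qpts hfg r hpt
  refine ⟨M₁, hM₁, fun k y hy => ?_⟩
  obtain ⟨z', hz', hz'I⟩ := h k y hy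
  refine ⟨z', hz', fun s hs => ?_⟩
  obtain ⟨τ, hτ⟩ := hI s hs
  rw [← hτ z', hz'I τ]

end Fermat.Agent.MAZ.K3Abs43
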