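/-
Programme MAZ (S15), brick T1B-U (helper43): passage from the LEVELWISE statements (U2 = FORMAL' and
U3' = TORS, proved in `Pic X_{O_E}` for each complete level `E`) to the subgroups `J0`, `J1` of
`A = Pic X_{ℚ̄_p}` (unions over the levels of the images), i.e. the hypotheses `htors`, `hdiv`, `hinj` of
`K3Abs43.exists_local_division`.

Abstract form: `G i` (multiplicative, `= Pic X_{O_{E_i}}`), `b i : G i →* Multiplicative A`
(`= bcO`), subgroups `P i` (`= P00`), `Q i` (`= J1`, kernel of reduction), and `J0`, `J1 ≤ A` described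
as the unions of the images.  No directedness is needed here (it is needed only to know that the unions
are subgroups, which is part of the data `J0 J1 : AddSubgroup A`).  Mathlib only.
-/
import Mathlib

set_option autoImplicit false

namespace Fermat.Agent.MAZ.K3Abs43

variable {ι : Type*} {G : ι → Type*} [∀ i, CommGroup (G i)] {A : Type*} [AddCommGroup A]

/-- `htors` for the unions from levelwise (TORS). -/
theorem htors_of_levels (b : ∀ i, G i →* Multiplicative A) (P Q : ∀ i, Subgroup (G i))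
    (J0 J1 : AddSubgroup A)
    (hJ0 : ∀ y : A, y ∈ J0 → ∃ (i : ι) (x : G i), x ∈ P i ∧ b i x = Multiplicative.ofAdd y)
    (hJ1 : ∀ (i : ι) (x : G i), x ∈ Q i → Multiplicative.toAdd (b i x) ∈ J1)
    (htors : ∀ i, ∀ x ∈ P i, ∃ h : ℕ, 0 < h ∧ x ^ h ∈ Q i) :
    ∀ y ∈ J0, ∃ h : ℕ, 0 < h ∧ h • y ∈ J1 := by
  intro y hy
  obtain ⟨i, x, hx, hxy⟩ := hJ0 y hy
  obtain ⟨h, hh, hxh⟩ := htors i x hx
  refine ⟨h, hh, ?_⟩
  have := hJ1 i _ hxh
  rwa [map_pow, hxy, ← ofAdd_nsmul, toAdd_ofAdd] at this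

/-- `hdiv` for the union from levelwise divisibility (FORMAL', existence). -/
theorem hdiv_of_levels (b : ∀ i, G i →* Multiplicative A) (Q : ∀ i, Subgroup (G i))
    (J1 : AddSubgroup A) (r : ℕ)
    (hJ1 : ∀ y : A, y ∈ J1 → ∃ (i : ι) (x : G i), x ∈ Q i ∧ b i x = Multiplicative.ofAdd y)
    (hJ1' : ∀ (i : ι) (x : G i), x ∈ Q i → Multiplicative.toAdd (b i x) ∈ J1)
    (hdiv : ∀ i, ∀ x ∈ Q i, ∃ x' ∈ Q i, x' ^ r = x) :
    ∀ y ∈ J1, ∃ y' ∈ J1, r • y' = y := by
  intro y hy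
  obtain ⟨i, x, hx, hxy⟩ := hJ1 y hy
  obtain ⟨x', hx', hx'r⟩ := hdiv i x hx
  refine ⟨Multiplicative.toAdd (b i x'), hJ1' i x' hx', ?_⟩
  rw [← toAdd_pow, ← map_pow, hx'r, hxy, toAdd_ofAdd]

/-- `hinj` for the union from levelwise torsion-freeness (FORMAL', uniqueness) and injectivity of the
base change on the `Q i`. -/
theorem hinj_of_levels (b : ∀ i, G i →* Multiplicative A) (Q : ∀ i, Subgroup (G i))
    (J1 : AddSubgroup A) (r : ℕ)
    (hJ1 : ∀ y : A, y ∈ J1 → ∃ (i : ι) (x : G i), x ∈ Q i ∧ b i x = Multiplicative.ofAdd y)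
    (hinj : ∀ i, ∀ x ∈ Q i, x ^ r = 1 → x = 1)
    (hb : ∀ i, ∀ x ∈ Q i, b i x = 1 → x = 1) :
    ∀ y ∈ J1, r • y = 0 → y = 0 := by
  intro y hy hry
  obtain ⟨i, x, hx, hxy⟩ := hJ1 y hy
  have h1 : b i (x ^ r) = 1 := by
    rw [map_pow, hxy, ← ofAdd_nsmul, hry, ofAdd_zero]
  have h2 : x ^ r = 1 := hb i _ ((Q i).pow_mem hx r) h1
  have h3 : x = 1 := hinj i x hx h2
  rw [h3, map_one] at hxy
  have := congrArg Multiplicative.toAdd hxy
  simpa using this.symm

end Fermat.Agent.MAZ.K3Abs43
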