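/-
Programme MAZ (S15), brick (K3), helper43: **ONE SECTION IS ENOUGH** (abstract, Mathlib +
`K3Asm7/Abstract` only).

`K3Asm7.hcusp_of_degree` needs TWO classes `ρ₁ ρ₂` (sections with smooth reduction on the two
components), (ADJ) `∀ z ∈ Jext, ∃ m₀ m₁, z + m₀ • ρ₁ + m₁ • ρ₂ ∈ J0` and (c) `n₀ • (ρ₁ - ρ₂) ∈ J0`.

Here ONE class `ρ` with `δ ρ ≠ 0` suffices, together with

  (ADJ1)  `∀ z ∈ Jext, ∃ m : ℤ, n₀ • (a • z + m • ρ) ∈ J0`     (`a ≠ 0` fixed; `a = 1` for a point class)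

which follows from the vertical twist alone (`CuspJ0_20.Hub.pow_mem_J0L`: a class of multidegree
`(b, -b)` has its `ν`-th power in `J⁰`): for `z` the generic fibre of `x` with `Mdeg x = (m₀, m₁)` and
`ρ` the generic fibre of a section `y` with `Mdeg y = -e_i`, the class `x * y ^ (m₀ + m₁)` has multidegree
`(b, -b)`, so `ν • (z + (m₀ + m₁) • ρ) ∈ J0`.

Then: `δ` kills `j(J)` (divisible), `J1` (`r`-divisible), `J0` (`J0/J1` torsion) AUTOMATICALLY, so for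
`z ∈ Jext` with `j x - z ∈ J0`: `δ z = 0`, `0 = δ (n₀ • (a • z + m • ρ)) = n₀ * m * δ ρ`, `m = 0` and
`(n₀ * |a|) • z ∈ J0`.

* `hcusp_of_degree_one`  : the (CUSP'') statement from ONE section;
* `k3_of_local_one`      : `K3Asm7.k3_of_local` with `C := Jext`, (Φ'') `y ∈ Jext`, (ADJ1), (δ).
-/
import Mathlib
import Fermat.Agent.MAZ.K3Asm7.Abstract

set_option autoImplicit false
set_option linter.unusedSectionVars false
set_option linter.unusedVariables false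

namespace Fermat.Agent.MAZ.K3Abs43.OneSection

open Fermat.Agent.MAZ.K3Asm7

variable {G I' J A : Type*} [Group G] [Group I'] [AddCommGroup J] [AddCommGroup A]
  [DistribMulAction G J] [DistribMulAction I' A]

/-- `δ` kills `J0` as soon as `J1` is `r`-divisible and `J0 / J1` is torsion. -/
theorem hom_eq_zero_on_J0 (J0 J1 : AddSubgroup A) (δ : A →+ ℤ) (r : ℕ) (hr : 1 < r)
    (hdiv : ∀ x ∈ J1, ∃ x' ∈ J1, r • x' = x)
    (htors : ∀ x ∈ J0, ∃ h : ℕ, 0 < h ∧ h • x ∈ J1) : ∀ x ∈ J0, δ x = 0 := by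
  have hδJ1 : ∀ x ∈ J1, δ x = 0 := hom_eq_zero_of_divisible δ hr J1 hdiv
  intro x hx
  obtain ⟨h, hh, hhx⟩ := htors x hx
  have h1 := hδJ1 _ hhx
  rw [map_nsmul, nsmul_eq_mul] at h1
  rcases mul_eq_zero.1 h1 with h2 | h2
  · exact absurd (by exact_mod_cast h2) hh.ne'
  · exact h2

/-- `δ` kills the image of a divisible group. -/
theorem hom_eq_zero_on_range (j : J →+ A) (δ : A →+ ℤ) (r : ℕ) (hr : 1 < r)
    (hJdiv : ∀ x : J, ∃ y : J, r • y = x) : ∀ x : J, δ (j x) = 0 := by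
  intro x
  exact hom_eq_zero_of_divisible (δ.comp j) hr ⊤
    (fun x _ => by obtain ⟨y, hy⟩ := hJdiv x; exact ⟨y, AddSubgroup.mem_top y, hy⟩) x
    (AddSubgroup.mem_top x)

/-- **(CUSP'') from ONE section** (general weights `a ≠ 0`). -/
theorem hcusp_of_degree_one' (j : J →+ A) (J0 J1 C : AddSubgroup A) (ρ : A)
    (δ : A →+ ℤ) (hδ : δ ρ ≠ 0)
    (r : ℕ) (hr : 1 < r)
    (hJdiv : ∀ x : J, ∃ y : J, r • y = x)
    (hdiv : ∀ x ∈ J1, ∃ x' ∈ J1, r • x' = x)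
    (htors : ∀ x ∈ J0, ∃ h : ℕ, 0 < h ∧ h • x ∈ J1)
    (n₀ : ℕ) (hn₀ : 0 < n₀) (a : ℕ)
    (hadj : ∀ z ∈ C, ∃ m : ℤ, n₀ • (a • z + m • ρ) ∈ J0) :
    ∀ x : J, ∀ z ∈ C, j x - z ∈ J0 → (n₀ * a) • z ∈ J0 := by
  have hδJ0 := hom_eq_zero_on_J0 J0 J1 δ r hr hdiv htors
  have hδj := hom_eq_zero_on_range j δ r hr hJdiv
  intro x z hz hxz
  have hδz : δ z = 0 := by
    have h1 := hδJ0 _ hxz
    rw [map_sub, hδj, zero_sub, neg_eq_zero] at h1
    exact h1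
  obtain ⟨m, hm⟩ := hadj z hz
  have h2 := hδJ0 _ hm
  rw [map_nsmul, map_add, map_nsmul, hδz, smul_zero, zero_add, map_zsmul, nsmul_eq_mul,
    smul_eq_mul] at h2
  have hm0 : m = 0 := by
    rcases mul_eq_zero.1 h2 with h | h
    · exact absurd (by exact_mod_cast h) hn₀.ne'
    · rcases mul_eq_zero.1 h with h' | h'
      · exact h'
      · exact absurd h' hδ
  rw [hm0, zero_smul, add_zero, ← mul_smul] at hm
  exact hm

/-- **(CUSP'') from ONE section**, weight `a = 1` (a point class). -/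
theorem hcusp_of_degree_one (j : J →+ A) (J0 J1 C : AddSubgroup A) (ρ : A)
    (δ : A →+ ℤ) (hδ : δ ρ ≠ 0)
    (r : ℕ) (hr : 1 < r)
    (hJdiv : ∀ x : J, ∃ y : J, r • y = x)
    (hdiv : ∀ x ∈ J1, ∃ x' ∈ J1, r • x' = x)
    (htors : ∀ x ∈ J0, ∃ h : ℕ, 0 < h ∧ h • x ∈ J1)
    (n₀ : ℕ) (hn₀ : 0 < n₀)
    (hadj : ∀ z ∈ C, ∃ m : ℤ, n₀ • (z + m • ρ) ∈ J0) :
    ∀ x : J, ∀ z ∈ C, j x - z ∈ J0 → n₀ • z ∈ J0 := by
  have h := hcusp_of_degree_one' j J0 J1 C ρ δ hδ r hr hJdiv hdiv htors n₀ hn₀ 1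
    (fun z hz => by
      obtain ⟨m, hm⟩ := hadj z hz
      exact ⟨m, by rwa [one_smul]⟩)
  intro x z hz hxz
  have := h x z hz hxz
  rwa [mul_one] at this

/-- **(K3), uniform form, ONE-SECTION variant of `K3Asm7.k3_of_local`**: `C := Jext` (the classes which
extend to the model over some level), (Φ'') an inertia-fixed class of points lies in `Jext`,
(ADJ1) + (δ) with ONE class `ρ`. -/
theorem k3_of_local_one (res : I' →* G) (j : J →+ A) (hj : Function.Injective j)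
    (hjres : ∀ (τ : I') (x : J), j (res τ • x) = τ • j x)
    (Pt J0 J1 Jext : AddSubgroup A) (hjPt : ∀ x, j x ∈ Pt) (r : ℕ) (hr : 1 < r)
    (hphi : ∀ y ∈ Pt, (∀ τ : I', τ • y = y) → y ∈ Jext)
    (ρ : A) (δ : A →+ ℤ) (hδ : δ ρ ≠ 0)
    (n₀ : ℕ) (hn₀ : 0 < n₀)
    (hadj : ∀ z ∈ Jext, ∃ m : ℤ, n₀ • (z + m • ρ) ∈ J0)
    (htors : ∀ x ∈ J0, ∃ h : ℕ, 0 < h ∧ h • x ∈ J1)
    (hstab : ∀ τ : I', ∀ x ∈ J1, τ • x ∈ J1)
    (hdiv : ∀ x ∈ J1, ∃ x' ∈ J1, r • x' = x)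
    (hinj : ∀ x ∈ J1, r • x = 0 → x = 0)
    (hJdiv : ∀ x : J, ∃ y : J, r • y = x)
    (hcmp : ∀ (k : ℕ) (a : A), r ^ k • a = 0 → ∃ t : J, j t = a)
    (Q : AddSubgroup J) (hfg : Q.FG) (hQ : ∀ y ∈ Q, ∀ g : G, g • y = y) :
    ∃ M₁ : ℕ, 0 < M₁ ∧ ∀ k : ℕ, ∀ y ∈ Q, ∃ z' : J, r ^ k • z' = M₁ • y ∧
      ∀ τ : I', res τ • z' = z' := by
  have hJdivk : ∀ (k : ℕ) (x : J), ∃ y : J, r ^ k • y = x := by
    intro k
    induction k with
    | zero => exact fun x => ⟨x, by rw [pow_zero, one_smul]⟩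
    | succ k ih =>
      intro x
      obtain ⟨y₁, hy₁⟩ := ih x
      obtain ⟨y₂, hy₂⟩ := hJdiv y₁
      exact ⟨y₂, by rw [pow_succ, mul_smul, hy₂, hy₁]⟩
  exact k3_of_local res j hj hjres Pt J0 J1 Jext hjPt r n₀ hn₀
    (fun y hy hI => ⟨y, hphi y hy hI, by rw [sub_self]; exact J0.zero_mem⟩)
    (hcusp_of_degree_one j J0 J1 Jext ρ δ hδ r hr hJdiv hdiv htors n₀ hn₀ hadj)
    htors hstab hdiv hinj hJdivk hcmp Q hfg hQ

/-! ### Non-uniform form: the integer `n` may depend on the class `z`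

The uniformisation over the finitely generated group `Q` happens AFTER the local step, so in (ADJ1) the
integer `n` may depend on `z` (e.g. `n = ν_E`, the number of nodes of the model over the level `O_E` at
which `z` extends): no uniform twist, no transfer of the twist between levels is needed. -/

/-- **(K3), pointwise, ONE section, non-uniform (ADJ1)**. -/
theorem exists_division_point_one (res : I' →* G) (j : J →+ A) (hj : Function.Injective j)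
    (hjres : ∀ (τ : I') (x : J), j (res τ • x) = τ • j x)
    (Pt J0 J1 Jext : AddSubgroup A) (hjPt : ∀ x, j x ∈ Pt) (r : ℕ) (hr : 1 < r)
    (hphi : ∀ y ∈ Pt, (∀ τ : I', τ • y = y) → y ∈ Jext)
    (ρ : A) (δ : A →+ ℤ) (hδ : δ ρ ≠ 0)
    (hadj : ∀ z ∈ Jext, ∃ n : ℕ, 0 < n ∧ ∃ m : ℤ, n • (z + m • ρ) ∈ J0)
    (htors : ∀ x ∈ J0, ∃ h : ℕ, 0 < h ∧ h • x ∈ J1)
    (hstab : ∀ τ : I', ∀ x ∈ J1, τ • x ∈ J1)
    (hdiv : ∀ x ∈ J1, ∃ x' ∈ J1, r • x' = x)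
    (hinj : ∀ x ∈ J1, r • x = 0 → x = 0)
    (hJdiv : ∀ x : J, ∃ y : J, r • y = x)
    (hcmp : ∀ (k : ℕ) (a : A), r ^ k • a = 0 → ∃ t : J, j t = a)
    (y : J) (hy : ∀ τ : I', res τ • y = y) :
    ∃ M : ℕ, 0 < M ∧ ∀ k : ℕ, ∃ z' : J, r ^ k • z' = M • y ∧ ∀ τ : I', res τ • z' = z' := by
  have hJdivk : ∀ (k : ℕ) (x : J), ∃ y : J, r ^ k • y = x := by
    intro k
    induction k with
    | zero => exact fun x => ⟨x, by rw [pow_zero, one_smul]⟩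
    | succ k ih =>
      intro x
      obtain ⟨y₁, hy₁⟩ := ih x
      obtain ⟨y₂, hy₂⟩ := hJdiv y₁
      exact ⟨y₂, by rw [pow_succ, mul_smul, hy₂, hy₁]⟩
  have hyI : ∀ τ : I', τ • j y = j y := fun τ => by rw [← hjres, hy]
  have hyJ : j y ∈ Jext := hphi (j y) (hjPt y) hyI
  obtain ⟨n, hn, m, hm⟩ := hadj (j y) hyJ
  have hδJ0 := hom_eq_zero_on_J0 J0 J1 δ r hr hdiv htors
  have hδj := hom_eq_zero_on_range j δ r hr hJdiv
  have h2 := hδJ0 _ hm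
  rw [map_nsmul, map_add, hδj, zero_add, map_zsmul, nsmul_eq_mul, smul_eq_mul] at h2
  have hm0 : m = 0 := by
    rcases mul_eq_zero.1 h2 with h | h
    · exact absurd (by exact_mod_cast h) hn.ne'
    · rcases mul_eq_zero.1 h with h' | h'
      · exact h'
      · exact absurd h' hδ
  rw [hm0, zero_smul, add_zero] at hm
  obtain ⟨h, hh, hw⟩ := htors _ hm
  refine ⟨h * n, Nat.mul_pos hh hn, fun k => ?_⟩
  have hMy : (h * n) • j y ∈ J1 := by rwa [mul_smul]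
  have hwI : ∀ τ : I', τ • ((h * n) • j y) = (h * n) • j y := fun τ => by rw [smul_comm, hyI]
  obtain ⟨ξ, -, hξ, hξI⟩ := exists_fixed_root J1 r hstab hdiv hinj ((h * n) • j y) hMy hwI k
  exact exists_global_root res j hj hjres r k (hJdivk k) (hcmp k) ((h * n) • y) ξ
    (by rw [hξ, map_nsmul]) hξI

/-- **(K3), uniform form, ONE section, non-uniform (ADJ1)**: the form to instantiate. -/
theorem k3_of_local_one' (res : I' →* G) (j : J →+ A) (hj : Function.Injective j)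
    (hjres : ∀ (τ : I') (x : J), j (res τ • x) = τ • j x)
    (Pt J0 J1 Jext : AddSubgroup A) (hjPt : ∀ x, j x ∈ Pt) (r : ℕ) (hr : 1 < r)
    (hphi : ∀ y ∈ Pt, (∀ τ : I', τ • y = y) → y ∈ Jext)
    (ρ : A) (δ : A →+ ℤ) (hδ : δ ρ ≠ 0)
    (hadj : ∀ z ∈ Jext, ∃ n : ℕ, 0 < n ∧ ∃ m : ℤ, n • (z + m • ρ) ∈ J0)
    (htors : ∀ x ∈ J0, ∃ h : ℕ, 0 < h ∧ h • x ∈ J1)
    (hstab : ∀ τ : I', ∀ x ∈ J1, τ • x ∈ J1)
    (hdiv : ∀ x ∈ J1, ∃ x' ∈ J1, r • x' = x)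
    (hinj : ∀ x ∈ J1, r • x = 0 → x = 0)
    (hJdiv : ∀ x : J, ∃ y : J, r • y = x)
    (hcmp : ∀ (k : ℕ) (a : A), r ^ k • a = 0 → ∃ t : J, j t = a)
    (Q : AddSubgroup J) (hfg : Q.FG) (hQ : ∀ y ∈ Q, ∀ g : G, g • y = y) :
    ∃ M₁ : ℕ, 0 < M₁ ∧ ∀ k : ℕ, ∀ y ∈ Q, ∃ z' : J, r ^ k • z' = M₁ • y ∧
      ∀ τ : I', res τ • z' = z' :=
  exists_uniform_of_fg_res res Q hfg r fun y hy =>
    exists_division_point_one res j hj hjres Pt J0 J1 Jext hjPt r hr hphi ρ δ hδ hadj htors hstab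
      hdiv hinj hJdiv hcmp y (fun τ => hQ y hy (res τ))

end Fermat.Agent.MAZ.K3Abs43.OneSection
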